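import Fermat.Agent.FF19.G0.Interface2
import Fermat.Agent.FF19.Kap.NSInterface
import Fermat.Agent.FF19.NSA.UB
import Fermat.Agent.FF19.NSA.Asm
import Fermat.Agent.FF19.Law.GeoInterface
import Fermat.Agent.FF19.A.GeoM

/-!
# FF19 / Geo : THE INTEGRATION OF THE GEOMETRIC BLOCKS (architect helper37)

TARGET : `Top.Stmt_Geo M l`, via `A.stmt_Geo_of_pack` (helper36), i.e. `A.GeoPack` at level `M`.

    G0 (helper48)   : `Stmt_SpEx, SpUniq, Ord, SpSurj, SpIff, LBasis, SpAut`      ⟹ `Stmt_SpFun, Stmt_Reg, Stmt_Lat`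
    KAP (helper98)  : `Stmt_FibDiv, RRS, Basic` (also applied to `F / K` itself), `Stmt_NSOut`
    NSA (helper28)  : `Stmt_UB`
    A   (helper36)  : `Stmt_CurveFacts`, `geoOut`, `stmt_Geo_of_pack`
    LAW (helper90)  : `Stmt_Facts`, `Stmt_Law`, `Stmt_DivA`, `Stmt_CoEx`            ⟹ `Stmt_GeoLaw`
                                                                                   ⟹ `Stmt_Data` ⟹ `Stmt_Abs`
    CONC (helper12) : `Stmt_Conc M l`                                             ⟹ `Top.Stmt_Geo M l`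

Each `Stmt_X` is proved in its own file `Geo/X.lean` as `theorem stmt_X (deps) : Stmt_X`.
-/

set_option autoImplicit false
set_option synthInstance.maxHeartbeats 400000

noncomputable section

namespace Fermat.Agent.FF19.Geo

open AlgebraicCurve IntermediateField
open Fermat.Agent.INJ (RedData)
open Fermat.Agent.RED (Ev Qb GQ FF Pl)

/-- **GEO-1**.  The specialisation as a FUNCTION, and `A.SpData`.
[`sp P := (hEx .. P).choose`; `Sp P x ↔ sp P = x` by (S1b).  `SpData`: `A.push sp E y = G0.spc D t y E`: both sides are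
additive in `E` (`Finsupp.induction_linear`, `Finsupp.mapDomain_add`, `map_add`); for `E = single P n`:
`Finsupp.mapDomain_single`, `Finsupp.single_apply`, `Finsupp.liftAddHom_apply_single`, and `Sp D t P y ↔ sp P = y`.
Then (S4).  Surjectivity = (S2).] -/
def Stmt_SpFun : Prop :=
  ∀ (K F k κ : Type) [Field K] [IsAlgClosed K] [CharZero K] [Field F] [Algebra K F] [Field k]
    [IsAlgClosed k] [Field κ] [Algebra k κ] (D : RedData K F k κ) (t : F), G0.Model D t →
    ∃ sp : Place K F → Place k κ, (∀ P x, G0.Sp D t P x ↔ sp P = x) ∧ A.SpData D sp ∧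
      Function.Surjective sp

/-- **GEO-2**.  A place which specialises to a point where `t̄` is finite lies in the chart `t(P) ∈ A`.
[`RED.ev_mem`: `rd t ∈ y`.  `G0.Stmt_SpIff` with `T = t`: `SpC D t P y`; its second component for `z = t`
(`Chart.t_mem`; `t` is integral over `K[t]`: `isIntegral_algebraMap` for `⟨t, Algebra.subset_adjoin rfl⟩`) gives
`c ∈ A`, `Ev P t c`, `|rd t - c̄|_y < 1`, i.e. `Ev y (rd t) (ra c)` (`RED.EV_mem_nonunits_iff` /
`ValuationSubring.valuation_lt_one_iff`); `RED.ev_unique`.] -/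
def Stmt_Reg : Prop :=
  ∀ (K F k κ : Type) [Field K] [IsAlgClosed K] [CharZero K] [Field F] [Algebra K F] [Field k]
    [IsAlgClosed k] [Field κ] [Algebra k κ] (D : RedData K F k κ) (t : F), G0.Model D t →
    ∀ (P : Place K F) (y : Place k κ) (cbar : k), G0.Sp D t P y → Ev y (D.rd t) cbar →
      ∃ c ∈ D.A, Ev P t c ∧ D.ra c = cbar

/-- **GEO-3**.  The facts on the generic fibre `F / K`: KAP applied to `(K, F, t)`.
[`Kap.IsSepVar K t := ⟨ht, hfin, inferInstance⟩` (characteristic zero: `Algebra.IsSeparable` of an algebraic extension of a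
perfect field).  `Kap.Stmt_FibDiv` (1): `IsPoleDiv t Einf`, degree `= finrank`.  `Kap.Stmt_RRS` (1).] -/
def Stmt_Gen : Prop :=
  ∀ (K F : Type) [Field K] [IsAlgClosed K] [CharZero K] [Field F] [Algebra K F] (t : F),
    Transcendental K t → FiniteDimensional K⟮t⟯ F →
    (∃ Einf : Divisor K F, Law.PoleDiv t (Module.finrank K⟮t⟯ F) Einf) ∧
    ∀ E : Divisor K F, FiniteDimensional K (riemannRochSpace E)

/-- **GEO-4**.  Orthonormal bases of the spaces `L(E)`.
[`G0.Stmt_LBasis` + GEO-3 (2) (`Transcendental K t` : `(INJ.stmt_Gauss K F k κ D t hC.t_mem hC.trans).2.2.2.1`, see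
`NSA/UB.lean`; `hC.fin`).  `γ j • b j = algebraMap K F (γ j) * b j` is `Algebra.smul_def`.] -/
def Stmt_Lat : Prop :=
  ∀ (K F k κ : Type) [Field K] [IsAlgClosed K] [CharZero K] [Field F] [Algebra K F] [Field k]
    [IsAlgClosed k] [Field κ] [Algebra k κ] (D : RedData K F k κ) (t : F), G0.Model D t →
    ∀ E : Divisor K F, ∃ (N : ℕ) (b : Fin N → F), Law.IsLat D E b

/-- **GEO-5**.  `GeoData ⟹ LawConcl` (one order of the two charts).
[= the first half of the sketch of FFG-19 (task 1835).  `c0 i`, `c0' i` := the values of `t` at `P0 i`, `Q0 i`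
(`fib.reg` + `base.sp0`; `choose`).  `(N, b)` from `geo.lat`.  `Law.aa t c0 c0' ∈ riemannRochSpace (2 g Einf - sumPl Q0)`:
`Law.Stmt_DivA` with `P := P0`, `Q := Q0`: its divisor is `sumPl P0 + sumPl Q0 + Oth - 2 g Einf`, `Oth ≥ 0`, `sumPl P0 ≥ 0`
(`mem_riemannRochSpace_iff`).  `α` from `lat.span`.  This is `Law.Ctx`; `Law.Stmt_Facts`; `Law.Stmt_Law`.] -/
def Stmt_GeoLaw : Prop :=
  ∀ (K F k κ : Type) [Field K] [Field F] [Algebra K F] [Field k] [Field κ] [Algebra k κ]
    (D : RedData K F k κ) (sp : Place K F → Place k κ) (g s : ℕ) (t : F) (Einf : Divisor K F)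
    (w w' : Fin g → Fin (s + 1) → Place k κ) (cb cb' : Fin g → k) (P0 Q0 : Fin g → Place K F),
    Law.Arch D.A → Law.GeoData D sp g s t Einf w w' cb cb' P0 Q0 →
  ∀ T T' : Fin g → Pic0 K F → K, Law.IsCo sp (fun i => w i 0) P0 t T →
    Law.IsCo sp (fun i => w' i 0) Q0 t T' → Law.LawConcl D.A (Law.J1 sp) g T T'

/-- **GEO-6**.  `GeoData` is symmetric in the two charts.
[`⟨t_mem, spd, cf, pole, fib', fib, _, base', base, lat', lat⟩`; `Sum.elim cb' cb = Sum.elim cb cb' ∘ Sum.swap`.] -/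
def Stmt_Swap : Prop :=
  ∀ (K F k κ : Type) [Field K] [Field F] [Algebra K F] [Field k] [Field κ] [Algebra k κ]
    (D : RedData K F k κ) (sp : Place K F → Place k κ) (g s : ℕ) (t : F) (Einf : Divisor K F)
    (w w' : Fin g → Fin (s + 1) → Place k κ) (cb cb' : Fin g → k) (P0 Q0 : Fin g → Place K F),
    Law.GeoData D sp g s t Einf w w' cb cb' P0 Q0 → Law.GeoData D sp g s t Einf w' w cb' cb Q0 P0

/-- **GEO-7**.  THE CONTRACT `Law.GeoData` HOLDS, for ANY base points above the non special divisors.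
[`g := genusFF K F`, `n := finrank K⟮t⟯ F = s + 1` (`Module.finrank_pos`, `hC.fin`).
`finrank k⟮rd t⟯ κ = n` : `(INJ.all_Trace K F k κ D t hC).1`.  `Kap.IsSepVar k (rd t) := ⟨hC.trans,
NSA.Asm_finiteDimensional D t hC, hC.sep⟩`.  `NSA.Stmt_UB`: `NS.UB k (rd t) n g m₀`.
`Kap.Stmt_NSOut` with `Z = ∅`: `(cb, w)`; with `Z = Finset.univ.image cb`: `(cb', w')`.
`cb_inj`: cases on `Sum`.  `fib.reg`: GEO-2 (`(w i l).ord (rd t - cb i) = 1 ⟹ Ev (w i l) (rd t) (cb i)` by
`RED.ev_zero_iff_ord`, the function is `≠ 0` since `ord 0 = 0`).  `base.out`: `Kap.Stmt_Basic` (4) (`Infinite (Place k κ)`,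
`Infinite.exists_notMem_finset`) + surjectivity of `sp`.  `pole`, `lat`, `lat'`: GEO-3, GEO-4.  `cf`: `A.Stmt_CurveFacts`.] -/
def Stmt_Data : Prop :=
  ∀ (K F k κ : Type) [Field K] [IsAlgClosed K] [CharZero K] [Field F] [Algebra K F] [Field k]
    [IsAlgClosed k] [Field κ] [Algebra k κ] (D : RedData K F k κ) (t : F), G0.Model D t →
  ∀ sp : Place K F → Place k κ, (∀ P x, G0.Sp D t P x ↔ sp P = x) → A.SpData D sp →
    Function.Surjective sp →
    ∃ (s : ℕ) (Einf : Divisor K F) (w w' : Fin (genusFF K F) → Fin (s + 1) → Place k κ)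
      (cb cb' : Fin (genusFF K F) → k),
      ∀ P0 Q0 : Fin (genusFF K F) → Place K F, (∀ i, sp (P0 i) = w i 0) → (∀ i, sp (Q0 i) = w' i 0) →
        Law.GeoData D sp (genusFF K F) s t Einf w w' cb cb' P0 Q0

/-- **GEO-8**.  From `GeoData` to the hypotheses of `A.geoOut`.
[`x c := Bool.rec (fun i => w i 0) (fun i => w' i 0) c` etc.  `Base`: `geo.base`, `geo.base'`.
`A.Coord`: `t_mem`, `ev := fib.reg _ 0`, `unr := fib.unr _ 0`.  `val_ev`: `Law.val_eq` + `fib.reg`.
`A.LawHyp`: for `c = false`: `T, T'` from `Law.Stmt_CoEx` for the two charts, `LawConcl` from GEO-5;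
for `c = true`: GEO-6 + GEO-5.  `Law.IsCo` + `Law.val_eq` give `T i z = val (P i) - val (P0 i)`.
`A.J1sub sp = Law.J1 sp` : `AddSubgroup.ext`, `Law.mem_J1`, `A.mem_J1sub`.] -/
def Stmt_Hyp : Prop :=
  ∀ (K F k κ : Type) [Field K] [Field F] [Algebra K F] [Field k] [Field κ] [Algebra k κ]
    (D : RedData K F k κ) (sp : Place K F → Place k κ) (g s : ℕ) (t : F) (Einf : Divisor K F)
    (w w' : Fin g → Fin (s + 1) → Place k κ) (cb cb' : Fin g → k) (P0 Q0 : Fin g → Place K F),
    Law.Arch D.A → Law.GeoData D sp g s t Einf w w' cb cb' P0 Q0 →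
    (∀ c : Bool, A.Base sp (cond c (fun i => w' i 0) (fun i => w i 0)) (cond c Q0 P0)) ∧
    (∀ c : Bool, A.Coord D sp (cond c (fun i => w' i 0) (fun i => w i 0)) t (cond c cb' cb)) ∧
    (∀ (c : Bool) (i : Fin g) (P : Place K F),
      sp P = (cond c (fun i => w' i 0) (fun i => w i 0) : Fin g → Place k κ) i →
        Ev P t (Law.val P t)) ∧
    A.LawHyp D sp (fun c => cond c (fun i => w' i 0) (fun i => w i 0)) (fun c => cond c Q0 P0)
      (fun P => Law.val P t)

/-- what the concrete layer has to deliver at level `M` for the valuation ring `A` (block CONC, helper12). -/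
structure ConcPack (M : ℕ) (A : ValuationSubring Qb) {k κ : Type} [Field k] [Field κ] [Algebra k κ]
    (D : RedData Qb (FF M) k κ) (t : FF M) : Prop where
  hA : D.A = A
  model : G0.Model D t
  arch : Law.Arch D.A
  /-- `t` is fixed by inertia -/
  t_gal : ∀ σ ∈ A.inertiaSubgroupIn ℚ, RED.gal M σ • t = t
  /-- inertia preserves the Gauss valuation ring and acts trivially on its residue field -/
  O_gal : ∀ σ ∈ A.inertiaSubgroupIn ℚ, ∀ z : FF M, RED.gal M σ • z ∈ D.O ↔ z ∈ D.O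
  rd_gal : ∀ σ ∈ A.inertiaSubgroupIn ℚ, ∀ z ∈ D.O, D.rd (RED.gal M σ • z) = D.rd z
  /-- (LIFT) every point of the special fibre is the specialisation of a place fixed by inertia -/
  lift : ∀ x : Place k κ, ∃ Q : Pl M, G0.Sp D t Q x ∧
    ∀ σ ∈ A.inertiaSubgroupIn ℚ, RED.gal M σ • Q = Q

/-- **THE CONTRACT OF BLOCK CONC** at level `M`. -/
def Stmt_Conc (M l : ℕ) : Prop :=
  ∀ A : ValuationSubring Qb, A.LiesOverPrime l →
    ∃ (k κ : Type) (_ : Field k) (_ : IsAlgClosed k) (_ : Field κ) (_ : Algebra k κ)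
      (D : RedData Qb (FF M) k κ) (t : FF M), ConcPack M A D t

/-- **GEO-9 = THE TARGET.**
[`A.stmt_Geo_of_pack`.  `sp` from GEO-1; `s, Einf, w, w', cb, cb'` from GEO-7; `P0 i`, `Q0 i` := the fixed places of
`ConcPack.lift` above `w i 0`, `w' i 0`; GEO-8.  `sp_gal`: `G0.Stmt_SpAut` for `g := RED.gal M σ`.
`lift`: `ConcPack.lift (sp P)`.  `curve`: `geo.cf`.] -/
def Stmt_Main : Prop :=
  ∀ M l : ℕ, Stmt_Conc M l → Top.Stmt_Geo M l

end Fermat.Agent.FF19.Geo

end
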