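import Fermat.Agent.FF19.Geo.Interface

/-!
# FF19 / Geo : GEO-7, the contract `Law.GeoData` holds (task 1880)
-/

set_option autoImplicit false
set_option synthInstance.maxHeartbeats 400000

noncomputable section

namespace Fermat.Agent.FF19.Geo

open AlgebraicCurve IntermediateField
open Fermat.Agent.INJ (RedData)
open Fermat.Agent.RED (Ev Qb GQ FF Pl)

/-- a simple zero of `τ - c` is a point where `τ` takes the value `c`. -/
theorem Data_ev_of_ord {k κ : Type} [Field k] [Field κ] [Algebra k κ] (y : Place k κ) (τ : κ) (c : k)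
    (h : y.ord (τ - algebraMap k κ c) = 1) : Ev y τ c := by
  have hne : τ - algebraMap k κ c ≠ 0 := by
    intro h0
    rw [h0, Place.ord_zero] at h
    exact zero_ne_one h
  have h1 : Ev y (τ - algebraMap k κ c) 0 := (RED.ev_zero_iff_ord hne).2 (by rw [h]; exact one_pos)
  unfold Fermat.Agent.RED.Ev at h1 ⊢
  rwa [map_zero, sub_zero] at h1

/-- one system of fibres. -/
theorem Data_fibres (hReg : Stmt_Reg) {K F k κ : Type} [Field K] [IsAlgClosed K] [CharZero K]
    [Field F] [Algebra K F] [Field k] [IsAlgClosed k] [Field κ] [Algebra k κ] (D : RedData K F k κ)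
    (t : F) (hM : G0.Model D t) (sp : Place K F → Place k κ)
    (hsp : ∀ P x, G0.Sp D t P x ↔ sp P = x) {g s : ℕ} (w : Fin g → Fin (s + 1) → Place k κ)
    (cb : Fin g → k) (hw1 : ∀ i l, (w i l).ord (D.rd t - algebraMap k κ (cb i)) = 1)
    (hw2 : ∀ i, Function.Injective (w i)) : Law.Fibres D sp t w cb where
  reg i l P hP := hReg K F k κ D t hM P (w i l) (cb i) ((hsp P _).2 hP)
    (Data_ev_of_ord _ _ _ (hw1 i l))
  unr := hw1
  inj := hw2

/-- one base divisor. -/
theorem Data_base {K F k κ : Type} [Field K] [Field F] [Algebra K F] [Field k] [Field κ]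
    [Algebra k κ] (sp : Place K F → Place k κ) (hsurj : Function.Surjective sp)
    (hinf : Infinite (Place k κ)) {g : ℕ} (x : Fin g → Place k κ) (P0 : Fin g → Place K F)
    (hx : Function.Injective x) (hP0 : ∀ i, sp (P0 i) = x i)
    (hns : ∀ h : κ, h ≠ 0 → (∀ y : Place k κ, 0 ≤ A.sumPl x y + y.ord h) →
      ∃ c : k, h = algebraMap k κ c) : A.Base sp x P0 where
  inj := hx
  sp0 := hP0
  ns := hns
  out := by
    classical
    obtain ⟨y, hy⟩ := Infinite.exists_notMem_finset (Finset.univ.image x)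
    obtain ⟨Q, rfl⟩ := hsurj y
    exact ⟨Q, fun i h => hy (Finset.mem_image.2 ⟨i, Finset.mem_univ i, h.symm⟩)⟩

theorem stmt_Data (hReg : Stmt_Reg) (hGen : Stmt_Gen) (hLat : Stmt_Lat) (hNS : Kap.Stmt_NSOut)
    (hUB : NSA.Stmt_UB) (hB : Kap.Stmt_Basic) (hCF : A.Stmt_CurveFacts) : Stmt_Data := by
  intro K F k κ _ _ _ _ _ _ _ _ _ D t hM sp hsp hSpD hsurj
  classical
  have hC := hM.chart
  have htr : Transcendental K t := (INJ.stmt_Gauss K F k κ D t hC.t_mem hC.trans).2.2.2.1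
  have hfin := hC.fin
  have hpos : 0 < Module.finrank K⟮t⟯ F := Module.finrank_pos
  obtain ⟨s, hs⟩ : ∃ s, Module.finrank K⟮t⟯ F = s + 1 :=
    ⟨_, (Nat.succ_pred_eq_of_pos hpos).symm⟩
  have hdeg : Module.finrank k⟮D.rd t⟯ κ = Module.finrank K⟮t⟯ F :=
    (INJ.all_Trace K F k κ D t hC).1
  have hsv : Kap.IsSepVar k (D.rd t) := ⟨hC.trans, NSA.Asm_finiteDimensional D t hC, hC.sep⟩
  have hinf : Infinite (Place k κ) := (hB k κ (D.rd t) hsv).2.2.2
  obtain ⟨m₀, hub⟩ := hUB K F k κ D t hM.chart hM.chart' hM.branch hM.branch'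
  have hub0 := hub m₀ le_rfl
  rw [hs] at hub0
  obtain ⟨cb, w, hcb, -, hw1, hw2, -, hw4, hw5⟩ :=
    hNS k κ (D.rd t) hsv s (genusFF K F) m₀ (hdeg.trans hs) hub0 ∅
  obtain ⟨cb', w', hcb', hZ', hw1', hw2', -, hw4', hw5'⟩ :=
    hNS k κ (D.rd t) hsv s (genusFF K F) m₀ (hdeg.trans hs) hub0 (Finset.univ.image cb)
  obtain ⟨⟨Einf, hEinf⟩, -⟩ := hGen K F t htr hfin
  rw [hs] at hEinf
  refine ⟨s, Einf, w, w', cb, cb', fun P0 Q0 hP0 hQ0 => ?_⟩
  exact
    { t_mem := hC.t_mem
      spd := hSpD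
      cf := hCF K F t htr hfin
      pole := hEinf
      fib := Data_fibres hReg D t hM sp hsp w cb hw1 hw2
      fib' := Data_fibres hReg D t hM sp hsp w' cb' hw1' hw2'
      cb_inj := Function.Injective.sumElim hcb hcb' fun a b h =>
        hZ' b (Finset.mem_image.2 ⟨a, Finset.mem_univ a, h⟩)
      base := Data_base sp hsurj hinf _ P0 hw4 hP0 hw5
      base' := Data_base sp hsurj hinf _ Q0 hw4' hQ0 hw5'
      lat := hLat K F k κ D t hM _
      lat' := hLat K F k κ D t hM _ }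

end Fermat.Agent.FF19.Geo

end

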