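import Fermat.Agent.FF19.Geo.Interface

/-!
# FF19 / Geo : GEO-3 (`Stmt_Gen`) and GEO-4 (`Stmt_Lat`)
-/

set_option autoImplicit false
set_option synthInstance.maxHeartbeats 400000

noncomputable section

namespace Fermat.Agent.FF19.Geo

open AlgebraicCurve IntermediateField
open Fermat.Agent.INJ (RedData)
open Fermat.Agent.RED (Ev Qb GQ FF Pl)

theorem Gen_sepVar {K F : Type} [Field K] [CharZero K] [Field F] [Algebra K F] (t : F)
    (ht : Transcendental K t) (hfin : FiniteDimensional K⟮t⟯ F) : Kap.IsSepVar K t := by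
  have : CharZero K⟮t⟯ := charZero_of_injective_algebraMap (algebraMap K K⟮t⟯).injective
  exact ⟨ht, hfin, inferInstance⟩

theorem stmt_Gen (hF : Kap.Stmt_FibDiv) (hR : Kap.Stmt_RRS) : Stmt_Gen := by
  intro K F _ _ _ _ _ t ht hfin
  have hsep : Kap.IsSepVar K t := Gen_sepVar t ht hfin
  refine ⟨?_, ?_⟩
  · obtain ⟨⟨Einf, hp, hd⟩, -, -⟩ := hF K F t hsep
    exact ⟨Einf, ⟨hp, hd⟩⟩
  · intro E
    exact (hR K F t hsep).1 E

theorem stmt_Lat (hG : Stmt_Gen) (hL : G0.Stmt_LBasis) : Stmt_Lat := by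
  intro K F k κ _ _ _ _ _ _ _ _ _ D t hM E
  have hC := hM.chart
  have htr : Transcendental K t := (INJ.stmt_Gauss K F k κ D t hC.t_mem hC.trans).2.2.2.1
  have hfd := (hG K F t htr hC.fin).2 E
  obtain ⟨n, b, hb, hind, -, -, hspan⟩ := hL K F k κ D t hM E hfd
  refine ⟨n, b, ⟨fun j => (hb j).1, fun j => (hb j).2.1, hind, fun f hf => ?_⟩⟩
  obtain ⟨c, hc, -⟩ := hspan f hf
  refine ⟨c, ?_⟩
  rw [hc]
  exact Finset.sum_congr rfl fun i _ => (Algebra.smul_def _ _).symm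

end Fermat.Agent.FF19.Geo

end
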