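import Fermat.Agent.FF19.Geo.Interface
import Fermat.Agent.FF19.Law.GGeoCoord

/-!
# FF19 / Geo : GEO-5 + GEO-6 (helper46): `GeoData ⟹ LawConcl`, symmetry of `GeoData`
-/

set_option autoImplicit false
set_option synthInstance.maxHeartbeats 400000

noncomputable section

namespace Fermat.Agent.FF19.Geo

open AlgebraicCurve IntermediateField
open Fermat.Agent.INJ (RedData)
open Fermat.Agent.RED (Ev Qb GQ FF Pl)

theorem stmt_GeoLaw (hF : Law.Stmt_Facts) (hLaw : Law.Stmt_Law) (hA : Law.Stmt_DivA) :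
    Stmt_GeoLaw := by
  intro K F k κ _ _ _ _ _ _ D sp g s t Einf w w' cb cb' P0 Q0 hArch hG T T' hT hT'
  choose c0 _ hc0 _ using fun i => hG.fib.reg i 0 (P0 i) (hG.base.sp0 i)
  choose c0' _ hc0' _ using fun i => hG.fib'.reg i 0 (Q0 i) (hG.base'.sp0 i)
  exact Law.GGeoCoord_half hF hLaw hA hArch hG hT hT' hc0 hc0'

theorem stmt_Swap : Stmt_Swap := by
  intro K F k κ _ _ _ _ _ _ D sp g s t Einf w w' cb cb' P0 Q0 hG
  exact Law.GGeoCoord_swap hG

end Fermat.Agent.FF19.Geo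

end
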