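import Fermat.Agent.FF19.Geo.Interface

/-!
# FF19 / Geo : (GEO-8) from `GeoData` to the hypotheses of `A.geoOut` (helper54)
-/

set_option autoImplicit false
set_option synthInstance.maxHeartbeats 400000

noncomputable section

namespace Fermat.Agent.FF19.Geo

open AlgebraicCurve IntermediateField
open Fermat.Agent.INJ (RedData)
open Fermat.Agent.RED (Ev Qb GQ FF Pl)

section Aux

variable {K F k κ : Type} [Field K] [Field F] [Algebra K F] [Field k] [Field κ] [Algebra k κ]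

theorem Hyp_J1 (sp : Place K F → Place k κ) : Law.J1 sp = A.J1sub sp := by
  ext z
  rw [Law.mem_J1, A.mem_J1sub]

theorem Hyp_val {D : RedData K F k κ} {t : F} {P : Place K F} {cbar : k}
    (h : ∃ c ∈ D.A, Ev P t c ∧ D.ra c = cbar) : Ev P t (Law.val P t) := by
  obtain ⟨c, -, hc, -⟩ := h
  rw [Law.val_eq hc]
  exact hc

theorem Hyp_co {D : RedData K F k κ} {sp : Place K F → Place k κ} {g : ℕ} {t : F}
    {x : Fin g → Place k κ} {cb : Fin g → k} {P0 : Fin g → Place K F}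
    {T : Fin g → Pic0 K F → K}
    (reg : ∀ i (P : Place K F), sp P = x i → ∃ c ∈ D.A, Ev P t c ∧ D.ra c = cb i)
    (sp0 : ∀ i, sp (P0 i) = x i) (co : Law.IsCo sp x P0 t T) (z : Pic0 K F)
    (P : Fin g → Place K F) (i : Fin g) (h : A.Rep sp x P0 z P) :
    T i z = Law.val (P i) t - Law.val (P0 i) t :=
  co z P (fun i => Law.val (P i) t) (fun i => Law.val (P0 i) t) h
    (fun i => Hyp_val (reg i (P i) (h.1 i))) (fun i => Hyp_val (reg i (P0 i) (sp0 i))) i

end Aux

/-- **GEO-8**.  From `GeoData` to the hypotheses of `A.geoOut`. -/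
theorem stmt_Hyp (hL : Stmt_GeoLaw) (hS : Stmt_Swap) (hCo : Law.Stmt_CoEx) : Stmt_Hyp := by
  intro K F k κ _ _ _ _ _ _ D sp g s t Einf w w' cb cb' P0 Q0 hArch G
  refine ⟨?_, ?_, ?_, ?_⟩
  · rintro (_ | _)
    · exact G.base
    · exact G.base'
  · rintro (_ | _)
    · exact ⟨G.t_mem, fun i P h => G.fib.reg i 0 P h, fun i => G.fib.unr i 0⟩
    · exact ⟨G.t_mem, fun i P h => G.fib'.reg i 0 P h, fun i => G.fib'.unr i 0⟩
  · rintro (_ | _) i P h
    · exact Hyp_val (G.fib.reg i 0 P h)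
    · exact Hyp_val (G.fib'.reg i 0 P h)
  · obtain ⟨T1, co1⟩ := hCo K F k κ D sp g (fun i => w i 0) P0 t G.spd G.cf G.base
    obtain ⟨T2, co2⟩ := hCo K F k κ D sp g (fun i => w' i 0) Q0 t G.spd G.cf G.base'
    have f1 : ∀ z P i, A.Rep sp (fun i => w i 0) P0 z P →
        T1 i z = Law.val (P i) t - Law.val (P0 i) t :=
      fun z P i h => Hyp_co (fun i P h => G.fib.reg i 0 P h) G.base.sp0 co1 z P i h
    have f2 : ∀ z P i, A.Rep sp (fun i => w' i 0) Q0 z P →
        T2 i z = Law.val (P i) t - Law.val (Q0 i) t :=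
      fun z P i h => Hyp_co (fun i P h => G.fib'.reg i 0 P h) G.base'.sp0 co2 z P i h
    rintro (_ | _)
    · refine ⟨T1, T2, f1, f2, ?_⟩
      rw [← Hyp_J1]
      exact hL K F k κ D sp g s t Einf w w' cb cb' P0 Q0 hArch G T1 T2 co1 co2
    · refine ⟨T2, T1, f2, f1, ?_⟩
      rw [← Hyp_J1]
      exact hL K F k κ D sp g s t Einf w' w cb' cb Q0 P0 hArch
        (hS K F k κ D sp g s t Einf w w' cb cb' P0 Q0 G) T2 T1 co2 co1

end Fermat.Agent.FF19.Geo

end
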