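import Fermat.Agent.FF19.Geo.Interface

/-!
# FF19 / Geo : GEO-9, the target `Top.Stmt_Geo M l` from the contract of block CONC (helper37)
-/

set_option autoImplicit false
set_option synthInstance.maxHeartbeats 400000

noncomputable section

namespace Fermat.Agent.FF19.Geo

open AlgebraicCurve IntermediateField
open Fermat.Agent.INJ (RedData)
open Fermat.Agent.RED (Ev Qb GQ FF Pl)

/-- **GEO-9**. -/
theorem stmt_Main (h1 : Stmt_SpFun) (h7 : Stmt_Data) (h8 : Stmt_Hyp) (hAut : G0.Stmt_SpAut) :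
    Stmt_Main := by
  intro M l hConc
  refine A.stmt_Geo_of_pack M l ?_
  intro A hA
  obtain ⟨k, κ, _, _, _, _, D, t, C⟩ := hConc A hA
  obtain ⟨sp, hsp, hSpD, hsurj⟩ := h1 Qb (FF M) k κ D t C.model
  obtain ⟨s, Einf, w, w', cb, cb', hData⟩ := h7 Qb (FF M) k κ D t C.model sp hsp hSpD hsurj
  choose Q hQsp hQfix using C.lift
  set P0 : Fin (genusFF Qb (FF M)) → Pl M := fun i => Q (w i 0) with hP0
  set Q0 : Fin (genusFF Qb (FF M)) → Pl M := fun i => Q (w' i 0) with hQ0
  have hgeo := hData P0 Q0 (fun i => (hsp _ _).1 (hQsp _)) (fun i => (hsp _ _).1 (hQsp _))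
  obtain ⟨hB, hCo, hval, hlaw⟩ :=
    h8 Qb (FF M) k κ D sp (genusFF Qb (FF M)) s t Einf w w' cb cb' P0 Q0 C.arch hgeo
  refine ⟨k, κ, inferInstance, inferInstance, inferInstance, D, sp, genusFF Qb (FF M),
    fun c => cond c (fun i => w' i 0) (fun i => w i 0), fun c => cond c Q0 P0, t,
    fun c => cond c cb' cb, fun P => Law.val P t, ?_⟩
  refine
    { hA := C.hA
      spData := hSpD
      curve := hgeo.cf
      base := hB
      coord := hCo
      val_ev := hval
      law := hlaw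
      sp_gal := ?_
      t_gal := C.t_gal
      P0_gal := ?_
      lift := ?_ }
  · intro σ hσ P
    exact (hsp _ _).1 (hAut Qb (FF M) k κ D t (RED.gal M σ) (C.O_gal σ hσ) (C.rd_gal σ hσ)
      (C.t_gal σ hσ) P (sp P) ((hsp _ _).2 rfl))
  · intro σ hσ c i
    cases c
    · exact hQfix _ σ hσ
    · exact hQfix _ σ hσ
  · intro P
    exact ⟨Q (sp P), hQfix _, ((hsp _ _).1 (hQsp _)).symm⟩

end Fermat.Agent.FF19.Geo

end
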