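import Fermat.Agent.FF19.Geo.Interface

/-!
# FF19 / Geo : GEO-2 (`Stmt_Reg`)
-/

set_option autoImplicit false
set_option synthInstance.maxHeartbeats 400000

noncomputable section

namespace Fermat.Agent.FF19.Geo

open AlgebraicCurve IntermediateField
open Fermat.Agent.INJ (RedData)
open Fermat.Agent.RED (Ev Qb GQ FF Pl)

theorem stmt_Reg (h : G0.Stmt_SpIff) : Stmt_Reg := by
  intro K F k κ _ _ _ _ _ _ _ _ _ D t hM P y cbar hSp hEv
  have hy : D.rd t ∈ y.toValuationSubring := RED.ev_mem hEv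
  have hC : G0.SpC D t P y := ((h K F k κ D t hM t (Or.inl rfl) y hy P).1).1 hSp
  have hint : INJ.IsInt K t t := by
    have := isIntegral_algebraMap (R := Algebra.adjoin K {t}) (A := F)
      (x := (⟨t, Algebra.subset_adjoin rfl⟩ : Algebra.adjoin K {t}))
    exact this
  obtain ⟨c, hc, hPc, hval⟩ := hC.2 t hM.chart.t_mem hint
  refine ⟨c, hc, hPc, ?_⟩
  have hEv' : Ev y (D.rd t) (D.ra c) := by
    show D.rd t - algebraMap k κ (D.ra c) ∈ y.toValuationSubring.nonunits
    exact (ValuationSubring.mem_nonunits_iff _).2 hval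
  exact RED.ev_unique hEv' hEv

end Fermat.Agent.FF19.Geo

end
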