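import Fermat.Agent.FF19.Geo.Interface

/-!
# FF19 / Geo : GEO-1 (`Stmt_SpFun`) : the specialisation as a function, and `A.SpData`
-/

set_option autoImplicit false
set_option synthInstance.maxHeartbeats 400000

noncomputable section

namespace Fermat.Agent.FF19.Geo

open AlgebraicCurve IntermediateField
open Fermat.Agent.INJ (RedData)
open Fermat.Agent.RED (Ev Qb GQ FF Pl)

/-- `sp_*` computed with the function `sp` and with the relation `Sp`. -/
theorem SpFun_push {K F k κ : Type} [Field K] [Field F] [Algebra K F] [Field k] [Field κ]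
    [Algebra k κ] (D : RedData K F k κ) (t : F) (sp : Place K F → Place k κ)
    (hiff : ∀ P x, G0.Sp D t P x ↔ sp P = x) (y : Place k κ) (E : Divisor K F) :
    A.push sp E y = G0.spc D t y E := by
  classical
  induction E using Finsupp.induction_linear with
  | zero =>
    rw [map_zero]
    unfold A.push
    rw [Finsupp.mapDomain_zero]
    rfl
  | add E E' h h' =>
    rw [map_add, ← h, ← h']
    unfold A.push
    rw [Finsupp.mapDomain_add, Finsupp.add_apply]
  | single P n =>
    unfold A.push G0.spc
    rw [Finsupp.mapDomain_single, Finsupp.single_apply, Finsupp.liftAddHom_apply_single]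
    by_cases h : sp P = y
    · rw [if_pos h, if_pos ((hiff P y).2 h)]
      rfl
    · rw [if_neg h, if_neg (fun h' => h ((hiff P y).1 h'))]
      rfl

/-- **GEO-1**. -/
theorem stmt_SpFun (hEx : G0.Stmt_SpEx) (hU : G0.Stmt_SpUniq) (hO : G0.Stmt_Ord)
    (hS : G0.Stmt_SpSurj) : Stmt_SpFun := by
  intro K F k κ _ _ _ _ _ _ _ _ _ D t hM
  choose sp hsp using hEx K F k κ D t hM
  have hiff : ∀ P x, G0.Sp D t P x ↔ sp P = x := fun P x =>
    ⟨fun h => hU K F k κ D t hM P (sp P) x (hsp P) h, fun h => h ▸ hsp P⟩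
  refine ⟨sp, hiff, ?_, ?_⟩
  · intro f E hrd hE y
    rw [SpFun_push D t sp hiff y E]
    exact hO K F k κ D t hM f E hrd hE y
  · intro x
    obtain ⟨P, hP⟩ := hS K F k κ D t hM x
    exact ⟨P, (hiff P x).1 hP⟩

end Fermat.Agent.FF19.Geo

end
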